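import Fermat.Agent.Lib.FF.ModLRed
import Fermat.Agent.Lib.FF.RRApprox

/-!
# Weak Mordell–Weil: the Galois action on `J₀(N)(ℚ̄)` is smooth

Every class `x : JZero N` is fixed by an open subgroup of `G_ℚ`: there is a number field
`E ⊆ ℚ̄` such that `Gal(ℚ̄/E)` fixes `x`.

* every function `f ∈ ℚ̄·F_N` has its coefficients in a number field (closure induction);
* every place `P` is the unique pole of some function `f` (strong approximation, `Lib/FF`), so
  the stabiliser of `f` fixes `P`;
* hence divisors and divisor classes have open stabilisers.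
-/

set_option autoImplicit false

noncomputable section

namespace Fermat.Agent.MW.WMW.Smooth

open ModularCurve AlgebraicCurve HahnSeries IntermediateField

/-! ### Number fields inside `ℚ̄` and their fixing subgroups -/

section Fields

variable {L : Type*} [Field L] [Algebra ℚ L]

/-- The predicate "fixed by an open subgroup", for an arbitrary property of Galois elements. -/
def OpenlyFixed (p : (L ≃ₐ[ℚ] L) → Prop) : Prop :=
  ∃ E : IntermediateField ℚ L, FiniteDimensional ℚ E ∧ ∀ σ : L ≃ₐ[ℚ] L, σ ∈ E.fixingSubgroup → p σ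

theorem openlyFixed_of_forall {p : (L ≃ₐ[ℚ] L) → Prop} (h : ∀ σ, p σ) : OpenlyFixed p :=
  ⟨⊥, inferInstance, fun σ _ => h σ⟩

theorem OpenlyFixed.and {p q : (L ≃ₐ[ℚ] L) → Prop} (hp : OpenlyFixed p) (hq : OpenlyFixed q) :
    OpenlyFixed fun σ => p σ ∧ q σ := by
  obtain ⟨E₁, hE₁, h₁⟩ := hp
  obtain ⟨E₂, hE₂, h₂⟩ := hq
  refine ⟨E₁ ⊔ E₂, inferInstance, fun σ hσ => ⟨h₁ σ ?_, h₂ σ ?_⟩⟩
  · exact IntermediateField.fixingSubgroup_antitone (le_sup_left : E₁ ≤ E₁ ⊔ E₂) hσ
  · exact IntermediateField.fixingSubgroup_antitone (le_sup_right : E₂ ≤ E₁ ⊔ E₂) hσ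

theorem OpenlyFixed.mono {p q : (L ≃ₐ[ℚ] L) → Prop} (hp : OpenlyFixed p) (h : ∀ σ, p σ → q σ) :
    OpenlyFixed q := by
  obtain ⟨E, hE, h₁⟩ := hp
  exact ⟨E, hE, fun σ hσ => h σ (h₁ σ hσ)⟩

theorem openlyFixed_apply_eq [Algebra.IsAlgebraic ℚ L] (c : L) :
    OpenlyFixed fun σ : L ≃ₐ[ℚ] L => σ c = c := by
  have hc : IsIntegral ℚ c := (Algebra.IsAlgebraic.isAlgebraic c).isIntegral
  refine ⟨ℚ⟮c⟯, IntermediateField.adjoin.finiteDimensional hc, fun σ hσ => ?_⟩
  exact hσ ⟨c, IntermediateField.mem_adjoin_simple_self ℚ c⟩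

end Fields

/-! ### Functions -/

section Functions

variable {L : Type*} [Field L] [Algebra ℚ L] [Algebra.IsAlgebraic ℚ L]
variable (F₀ : IntermediateField ℚ (LaurentSeries ℚ))

/-- Every element of `L·F₀` has coefficients fixed by an open subgroup. -/
theorem openlyFixed_coeffMap {x : LaurentSeries L} (hx : x ∈ laurentBaseChange L F₀) :
    OpenlyFixed fun σ : L ≃ₐ[ℚ] L => coeffMap (σ : L →+* L) x = x := by
  unfold laurentBaseChange at hx
  induction hx using IntermediateField.adjoin_induction with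
  | mem x hx =>
      obtain ⟨y, _, rfl⟩ := hx
      exact openlyFixed_of_forall fun σ => coeffMap_coeffEmb σ y
  | algebraMap c =>
      refine (openlyFixed_apply_eq c).mono fun σ hσ => ?_
      rw [coeffMap_algebraMap]
      exact congrArg _ hσ
  | add x y _ _ hx hy =>
      refine (hx.and hy).mono fun σ h => ?_
      rw [map_add, h.1, h.2]
  | inv x _ hx =>
      refine hx.mono fun σ h => ?_
      rw [map_inv₀, h]
  | mul x y _ _ hx hy =>
      refine (hx.and hy).mono fun σ h => ?_
      rw [map_mul, h.1, h.2]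

/-- Every function of `L·F₀` is fixed by an open subgroup of the Galois group. -/
theorem openlyFixed_smul_fn (f : laurentBaseChange L F₀) :
    OpenlyFixed fun σ : L ≃ₐ[ℚ] L => arithmeticGalois F₀ σ • f = f :=
  (openlyFixed_coeffMap F₀ f.2).mono fun _ h => Subtype.ext h

end Functions

/-! ### Places -/

section Places

variable {K F : Type*} [Field K] [Field F] [Algebra K F]

/-- A semilinear automorphism fixing a function with a unique pole fixes that pole. -/
theorem smul_place_eq_of_unique_pole (g : SemilinearAut K F) (P : Place K F) (f : F)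
    (hP : P.ord f < 0) (hf : ∀ v : Place K F, v ≠ P → 0 ≤ v.ord f) (hg : g • f = f) :
    g • P = P := by
  by_contra hne
  have h1 := hf (g • P) hne
  have h2 := SemilinearAut.ord_smul g P f
  rw [hg] at h2
  omega

/-- Every place of a function field of one variable over an infinite field is the unique pole
of some function. -/
theorem exists_unique_pole [Infinite K] {x : F} (h : Fermat.Agent.Lib.FF.IsFF1 K F x)
    (P : Place K F) : ∃ f : F, P.ord f < 0 ∧ ∀ v : Place K F, v ≠ P → 0 ≤ v.ord f := by
  classical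
  have := h.infinite_place
  obtain ⟨Q, hQ⟩ : ∃ Q : Place K F, Q ≠ P := exists_ne P
  obtain ⟨f, hf0, hfS, hfout⟩ := h.exists_ord_eq {Q} P
    (by rw [Finset.mem_singleton]; exact fun h => hQ h.symm) (fun _ => 1)
  have hfQ : Q.ord f = 1 := hfS Q (Finset.mem_singleton_self Q)
  have hnonneg : ∀ v : Place K F, v ≠ P → 0 ≤ v.ord f := by
    intro v hv
    by_cases hvQ : v = Q
    · rw [hvQ, hfQ]; exact zero_le_one
    · exact hfout v (by rw [Finset.mem_singleton]; exact hvQ) hv
  refine ⟨f, ?_, hnonneg⟩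
  by_contra hP
  push Not at hP
  obtain ⟨c, hc⟩ := h.const_of_ord_nonneg f fun v => by
    by_cases hv : v = P
    · rw [hv]; exact hP
    · exact hnonneg v hv
  have : Q.ord f = 0 := by
    rw [hc]
    exact Fermat.Agent.S24.ord_algebraMap Q c
  omega

end Places

/-! ### Divisors and classes of the modular curve -/

section Modular

variable (N : ℕ) [NeZero N]

/-- Every place of `ℚ̄·F_N` is fixed by an open subgroup of `G_ℚ`. -/
theorem openlyFixed_smul_place
    (P : Place (AlgebraicClosure ℚ) (modularFunctionFieldBar N)) :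
    OpenlyFixed fun σ : AlgebraicClosure ℚ ≃ₐ[ℚ] AlgebraicClosure ℚ =>
      arithmeticGalois (modularFunctionFieldFull N) σ • P = P := by
  have : Algebra.IsAlgebraic ℚ (AlgebraicClosure ℚ) := AlgebraicClosure.isAlgebraic ℚ
  obtain ⟨f, hP, hf⟩ :=
    exists_unique_pole (Fermat.Agent.Lib.FF.isFF1_xL (AlgebraicClosure ℚ) N) P
  exact (openlyFixed_smul_fn (modularFunctionFieldFull N) f).mono fun σ hσ =>
    smul_place_eq_of_unique_pole _ P f hP hf hσ

/-- Every divisor of `ℚ̄·F_N` is fixed by an open subgroup of `G_ℚ`. -/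
theorem openlyFixed_smul_divisor
    (D : Divisor (AlgebraicClosure ℚ) (modularFunctionFieldBar N)) :
    OpenlyFixed fun σ : AlgebraicClosure ℚ ≃ₐ[ℚ] AlgebraicClosure ℚ =>
      arithmeticGalois (modularFunctionFieldFull N) σ • D = D := by
  induction D using Finsupp.induction with
  | zero => exact openlyFixed_of_forall fun σ => smul_zero _
  | single_add v n D _ _ ih =>
      refine ((openlyFixed_smul_place N v).and ih).mono fun σ h => ?_
      rw [smul_add, SemilinearAut.smul_single, h.1, h.2]

/-- **The Galois action on `J₀(N)(ℚ̄)` is smooth**: every class is fixed by `Gal(ℚ̄/E)` for some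
number field `E`. -/
theorem exists_open_stabilizer (x : JZero N) :
    ∃ E : IntermediateField ℚ (AlgebraicClosure ℚ), FiniteDimensional ℚ E ∧
      ∀ σ : AlgebraicClosure ℚ ≃ₐ[ℚ] AlgebraicClosure ℚ, σ ∈ E.fixingSubgroup → σ • x = x := by
  obtain ⟨D, rfl⟩ := Pic0.mk_surjective x
  refine (openlyFixed_smul_divisor N
    (D : Divisor (AlgebraicClosure ℚ) (modularFunctionFieldBar N))).mono fun σ h => ?_
  rw [galois_smul_pic0_def, SemilinearAut.pic0_smul_mk]
  exact congrArg Pic0.mk (Subtype.ext h)

end Modular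

end Fermat.Agent.MW.WMW.Smooth
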