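/-
MW (S17): the descent theorem with a quasi-parallelogram height and multiplication by ANY `n ≥ 2`.

Mathlib's `AddCommGroup.fg_of_descent'` needs the finite index of `2 • G`; weak Mordell–Weil is
delivered (Kummer theory for an odd prime) as the finite index of `3 • G`.  The bridge: a
quasi-parallelogram function `h` satisfies `|h (n • x) - n ^ 2 * h x| ≤ c_n` and
`h x ≤ 2 * h (g + x) + (2 * h g + C)`, which are the hypotheses of Mathlib's
`AddCommGroup.fg_of_descent` with `a = 2 < b = n ^ 2`.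

Mathlib only.
-/
import Mathlib

set_option autoImplicit false

namespace Fermat.Agent.MW.WMW.DescentN

variable {G : Type*} [AddCommGroup G] {h : G → ℝ} {C : ℝ}

/-- A quasi-parallelogram function is quasi-quadratic along multiples. -/
theorem exists_bound_nsmul
    (H₃ : ∀ x y, |h (x + y) + h (x - y) - 2 * (h x + h y)| ≤ C) (n : ℕ) :
    ∃ c : ℝ, ∀ x, |h (n • x) - (n : ℝ) ^ 2 * h x| ≤ c := by
  induction n using Nat.twoStepInduction with
  | zero =>
    exact ⟨|h 0|, fun x => by simp⟩
  | one =>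
    exact ⟨0, fun x => by simp⟩
  | more n ih0 ih1 =>
    obtain ⟨c0, hc0⟩ := ih0
    obtain ⟨c1, hc1⟩ := ih1
    refine ⟨C + c0 + 2 * c1, fun x => ?_⟩
    have h3 := H₃ ((n + 1) • x) x
    have e1 : (n + 1) • x + x = (n + 2) • x := by
      rw [add_nsmul, add_nsmul, one_nsmul, two_nsmul]; abel
    have e2 : (n + 1) • x - x = n • x := by
      rw [add_nsmul, one_nsmul]; abel
    rw [e1, e2] at h3
    have h0 := hc0 x
    have h1 := hc1 x
    rw [abs_le] at h3 h0 h1 ⊢
    push_cast at h1 ⊢
    constructor <;> nlinarith [h3.1, h3.2, h0.1, h0.2, h1.1, h1.2]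

/-- **Descent with multiplication by `n ≥ 2` and a quasi-parallelogram height.**  The variant of
Mathlib's `AddCommGroup.fg_of_descent'` in which `2 • G` is replaced by `n • G`. -/
theorem fg_of_quasiParallelogram {n : ℕ} (hn : 2 ≤ n)
    (H₁ : (nsmulAddMonoidHom (α := G) n).range.FiniteIndex) (H₂ : ∀ x, 0 ≤ h x)
    (H₃ : ∀ x y, |h (x + y) + h (x - y) - 2 * (h x + h y)| ≤ C) [Northcott h] :
    AddGroup.FG G := by
  obtain ⟨c₀, hc₀⟩ := exists_bound_nsmul H₃ n
  have hn' : (2 : ℝ) ≤ n := by exact_mod_cast hn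
  refine AddCommGroup.fg_of_descent (n := n) (h := h) (a := 2) (b := (n : ℝ) ^ 2) (c₀ := c₀)
    (c := fun g => 2 * h g + C) (by norm_num) (by nlinarith) H₁ (fun g x => ?_) (fun x => ?_)
  · have h3 := H₃ (g + x) g
    have e1 : g + x - g = x := by abel
    rw [e1, abs_le] at h3
    have := H₂ (g + x + g)
    linarith [h3.1, h3.2]
  · have := (abs_le.mp (hc₀ x)).1
    linarith

/-- The same, in the shape of `MW.HQ.fg_of_height` (a height on an ambient group `J`, descent on a
subgroup `G`), with `n ≥ 2` in place of `2`. -/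
theorem fg_of_height_nsmul {J : Type*} [AddCommGroup J] (G : AddSubgroup J) (q : J → ℝ) {n : ℕ}
    (hn : 2 ≤ n) (h0 : ∀ x, 0 ≤ q x)
    (hP : ∃ C : ℝ, ∀ x y, |q (x + y) + q (x - y) - 2 * (q x + q y)| ≤ C)
    (hN : ∀ T : ℝ, {x | q x ≤ T}.Finite)
    (hW : (nsmulAddMonoidHom (α := G) n).range.FiniteIndex) : AddGroup.FG G := by
  obtain ⟨C, hC⟩ := hP
  have : Northcott (fun x : G => q (x : J)) := ⟨fun T => by
    have := (hN T).preimage (f := fun x : G => (x : J)) (Subtype.val_injective.injOn)
    exact this.subset fun x hx => hx⟩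
  exact fg_of_quasiParallelogram (h := fun x : G => q (x : J)) (C := C) hn hW (fun x => h0 x)
    (fun x y => hC x y)

/-- The most flexible shape: the height lives on a group `J` into which the group `G` of interest
maps injectively (e.g. `G = J₀(N)(ℚ)`, `J = J₀(N)(K)` or `J₀(N)(ℚ̄)`). -/
theorem fg_of_height_map {G J : Type*} [AddCommGroup G] [AddCommGroup J] (f : G →+ J)
    (hf : Function.Injective f) (q : J → ℝ) {n : ℕ} (hn : 2 ≤ n) (h0 : ∀ x, 0 ≤ q x)
    (hP : ∃ C : ℝ, ∀ x y, |q (x + y) + q (x - y) - 2 * (q x + q y)| ≤ C)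
    (hN : ∀ T : ℝ, {x | q x ≤ T}.Finite)
    (hW : (nsmulAddMonoidHom (α := G) n).range.FiniteIndex) : AddGroup.FG G := by
  obtain ⟨C, hC⟩ := hP
  have : Northcott (fun x : G => q (f x)) := ⟨fun T => by
    have := (hN T).preimage (f := fun x : G => f x) hf.injOn
    exact this.subset fun x hx => hx⟩
  refine fg_of_quasiParallelogram (h := fun x : G => q (f x)) (C := C) hn hW (fun x => h0 _)
    (fun x y => ?_)
  have := hC (f x) (f y)
  simpa only [map_add, map_sub] using this

end Fermat.Agent.MW.WMW.DescentN
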