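/-
MW (S17), weak Mordell–Weil, ABSTRACT form: Kummer descent for a `G_ℚ`-module.

`J` is an abelian group with an action of `GQ = Gal(ℚ̄/ℚ)`, `p` an odd prime, `S ∋ p` a finite set
of primes.  Assume

* (smooth) every `x : J` is fixed by the fixing subgroup of a finite extension of `ℚ`;
* (torsion) `J[p]` is finite;
* (divisible) every Galois-fixed `y` is `p • z` for some `z : J`;
* (unramified) for a prime `q ∉ S`, the inertia groups at `q` fix every `z` with `p • z`
  Galois-fixed.

Then `p • J^{GQ}` has finite index in `J^{GQ}` (`finiteIndex_nsmul_fixedPoints`): this is the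
hypothesis `H₁` of Mathlib's `AddCommGroup.fg_of_descent`.

Proof.  `K` := a level for `S` containing `ζ_p` whose Galois group fixes `J[p]`.  For a fixed `y`
and `p • z = y` the map `s ↦ s • z − z` is an `S`-level homomorphism `Gal(ℚ̄/K) → J[p]`; there are
finitely many of those (`PT.KumBridge.exists_card_kummerChars`: Kummer theory, `S`-units and class
group).  If two points have the same homomorphism their difference is `p • w` with `w` fixed by
`Gal(ℚ̄/K)`, and `s ↦ s • w − w` is a map `GQ / Gal(ℚ̄/K) → J[p]`.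
-/
import Mathlib
import Fermat.Agent.PT.G.KumBridge
import Fermat.Agent.PT.LevelTwist

set_option autoImplicit false
set_option linter.style.haveILetI false

namespace Fermat.Agent.MW.WMW.KummerDescent

open Fermat.Agent.PT ExtCitation

local notation "Qb" => AlgebraicClosure ℚ
local notation "GQ" => (AlgebraicClosure ℚ ≃ₐ[ℚ] AlgebraicClosure ℚ)

attribute [local instance] Fermat.Agent.Lib.FrobeniusExists.isAlgClosure_rat
  Fermat.Agent.Lib.FrobeniusExists.isGalois_rat

/-! ### Levels from open subgroups -/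

/-- A subgroup of `GQ` containing the fixing subgroup of a finite extension and the inertia groups
outside `S` is the fixing subgroup of a level for `S`. -/
theorem exists_level_fixingSubgroup_eq (S : Finset Nat.Primes) (H : Subgroup GQ)
    (F : IntermediateField ℚ Qb) (hF : FiniteDimensional ℚ F) (hFH : F.fixingSubgroup ≤ H)
    (hI : ∀ q : Nat.Primes, q ∉ S → ∀ A : ValuationSubring Qb, A.LiesOverPrime (q : ℕ) →
      A.inertiaSubgroupIn ℚ ≤ H) :
    ∃ K : IntermediateField ℚ Qb, K.IsUnramifiedOutside S ∧ K.fixingSubgroup = H := by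
  have hopen : IsOpen (H : Set GQ) := Subgroup.isOpen_mono hFH F.fixingSubgroup_isOpen
  have hK : (IntermediateField.fixedField H).fixingSubgroup = H :=
    InfiniteGalois.fixingSubgroup_fixedField ⟨H, H.isClosed_of_isOpen hopen⟩
  refine ⟨IntermediateField.fixedField H, ⟨?_, fun q hq A hA => ?_⟩, hK⟩
  · exact (InfiniteGalois.isOpen_iff_finite _).mp (by rw [hK]; exact hopen)
  · rw [hK]
    exact hI q hq A hA

/-- The fixing subgroup of a finite extension has finite index. -/
theorem finiteIndex_fixingSubgroup' (L : IntermediateField ℚ Qb) (hL : FiniteDimensional ℚ L) :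
    L.fixingSubgroup.FiniteIndex := by
  refine ⟨?_⟩
  rw [← IntermediateField.finrank_eq_fixingSubgroup_index]
  exact Module.finrank_pos.ne'

/-! ### Level homomorphisms with values in a finite group killed by `p` -/

/-- The `S`-level homomorphisms `Gal(ℚ̄/K) → T`: additive maps which are constant on the cosets of
the fixing subgroup of some level for `S`. -/
def LevelHom (K : IntermediateField ℚ Qb) (S : Finset Nat.Primes) (T : Type*) [AddCommGroup T] :
    Set (K.fixingSubgroup → T) :=
  {f | (∀ g h : K.fixingSubgroup, f (g * h) = f g + f h) ∧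
    ∃ F : IntermediateField ℚ Qb, F.IsUnramifiedOutside S ∧
      ∀ g s : K.fixingSubgroup, (s : GQ) ∈ F.fixingSubgroup → f (g * s) = f g}

theorem exists_addHom_ne_zero_aux (p : ℕ) [Fact p.Prime] (T : Type*) [AddCommGroup T]
    [Module (ZMod p) T] (v : T) (hv : v ≠ 0) : ∃ lam : T →+ ZMod p, lam v ≠ 0 := by
  let b := Module.Basis.ofVectorSpace (ZMod p) T
  have h1 : b.repr v ≠ 0 := fun h => hv (b.repr.map_eq_zero_iff.mp h)
  obtain ⟨i, hi⟩ := Finsupp.ne_iff.mp h1
  exact ⟨(b.coord i).toAddMonoidHom, hi⟩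

/-- Additive characters with values in `ℤ/p` separate the points of a group killed by `p`. -/
theorem exists_addHom_ne_zero (p : ℕ) [Fact p.Prime] (T : Type*) [AddCommGroup T]
    (hT : ∀ x : T, p • x = 0) (v : T) (hv : v ≠ 0) : ∃ lam : T →+ ZMod p, lam v ≠ 0 :=
  letI : Module (ZMod p) T := AddCommGroup.zmodModule hT
  exists_addHom_ne_zero_aux p T v hv

/-- **Finiteness of the level homomorphisms** (Kummer theory + finiteness of the `S`-units modulo
`p`-th powers and of the class group). -/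
theorem finite_levelHom (p : ℕ) [Fact p.Prime] (hp2 : p ≠ 2) (S : Finset Nat.Primes)
    (hpS : pPrime p ∈ S) (K : IntermediateField ℚ Qb) (hK : K.IsUnramifiedOutside S) {ζ : Qb}
    (hζ : IsPrimitiveRoot ζ p) (hζK : ζ ∈ K) (T : Type*) [AddCommGroup T] [Finite T]
    (hT : ∀ x : T, p • x = 0) : (LevelHom K S T).Finite := by
  have : NumberField K := by
    have := hK.1
    exact ⟨⟩
  obtain ⟨c, -, -, hcard⟩ := KumBridge.exists_card_kummerChars K S p hp2 hpS hK hζ hζK
  have : Finite (KumBridge.kummerChars K S p) :=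
    Nat.finite_of_card_ne_zero (by
      rw [hcard]
      exact pow_ne_zero _ (Fact.out : p.Prime).ne_zero)
  have : Finite (T →+ ZMod p) :=
    Finite.of_injective (fun f => (f : T → ZMod p)) DFunLike.coe_injective
  let Φ : LevelHom K S T → ((T →+ ZMod p) → KumBridge.kummerChars K S p) := fun f lam =>
    ⟨fun g => lam (f.1 g), ⟨fun g h => by
      show lam (f.1 (g * h)) = lam (f.1 g) + lam (f.1 h)
      rw [f.2.1, map_add], by
      obtain ⟨F, hF, h⟩ := f.2.2
      refine ⟨F, hF, fun g s hs => ?_⟩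
      show lam (f.1 (g * s)) = lam (f.1 g)
      rw [h g s hs]⟩⟩
  have hΦ : Function.Injective Φ := by
    intro f f' hff
    apply Subtype.ext
    funext g
    by_contra hne
    obtain ⟨lam, hlam⟩ := exists_addHom_ne_zero p T hT (f.1 g - f'.1 g) (sub_ne_zero.mpr hne)
    have h1 : lam (f.1 g) = lam (f'.1 g) :=
      congrArg (fun F => (F lam).1 g) hff
    apply hlam
    rw [map_sub, sub_eq_zero]
    exact h1
  exact Set.finite_coe_iff.mp (Finite.of_injective Φ hΦ)

/-! ### The descent -/

section Descent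

variable {J : Type*} [AddCommGroup J] [DistribMulAction GQ J]

theorem smul_nsmul_comm' (σ : GQ) (n : ℕ) (x : J) : σ • (n • x) = n • (σ • x) :=
  map_nsmul (DistribSMul.toAddMonoidHom J σ) n x

/-- **Abstract weak Mordell–Weil.** -/
theorem finiteIndex_nsmul_fixedPoints (p : ℕ) [Fact p.Prime] (hp2 : p ≠ 2)
    (S : Finset Nat.Primes) (hpS : pPrime p ∈ S)
    (hsm : ∀ x : J, ∃ F : IntermediateField ℚ Qb, FiniteDimensional ℚ F ∧
      ∀ σ : GQ, σ ∈ F.fixingSubgroup → σ • x = x)
    (htor : {x : J | p • x = 0}.Finite)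
    (hdiv : ∀ y : J, (∀ τ : GQ, τ • y = y) → ∃ z : J, p • z = y)
    (hunr : ∀ q : Nat.Primes, q ∉ S → ∀ A : ValuationSubring Qb, A.LiesOverPrime (q : ℕ) →
      ∀ σ ∈ A.inertiaSubgroupIn ℚ, ∀ z : J, (∀ τ : GQ, τ • (p • z) = p • z) → σ • z = z) :
    (nsmulAddMonoidHom (α := ↥(FixedPoints.addSubgroup GQ J)) p).range.FiniteIndex := by
  classical
  -- the `p`-torsion
  let T : AddSubgroup J := (nsmulAddMonoidHom (α := J) p).ker
  have hTmem : ∀ x : J, x ∈ T ↔ p • x = 0 := fun x => Iff.rfl
  haveI : Finite T := htor.to_subtype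
  have hT0 : ∀ x : T, p • x = 0 := fun x => Subtype.ext ((hTmem x).mp x.2)
  choose Fx hFxfin hFx using hsm
  -- the subgroup fixing the `p`-torsion pointwise
  let N : Subgroup GQ :=
    { carrier := {σ | ∀ x : J, p • x = 0 → σ • x = x}
      mul_mem' := fun {a b} ha hb x hx => by rw [mul_smul, hb x hx, ha x hx]
      one_mem' := fun x _ => one_smul _ x
      inv_mem' := fun {a} ha x hx => by rw [inv_smul_eq_iff, ha x hx] }
  let F₀ : IntermediateField ℚ Qb := ⨆ x : T, Fx x
  haveI : ∀ x : T, FiniteDimensional ℚ (Fx x) := fun x => hFxfin x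
  have hF₀ : FiniteDimensional ℚ F₀ := IntermediateField.finiteDimensional_iSup_of_finite
  have hF₀N : F₀.fixingSubgroup ≤ N := by
    intro σ hσ x hx
    exact hFx x σ (IntermediateField.fixingSubgroup_antitone
      (le_iSup (fun x : T => Fx x) ⟨x, hx⟩) hσ)
  have hIN : ∀ q : Nat.Primes, q ∉ S → ∀ A : ValuationSubring Qb, A.LiesOverPrime (q : ℕ) →
      A.inertiaSubgroupIn ℚ ≤ N := by
    intro q hq A hA σ hσ x hx
    exact hunr q hq A hA σ hσ x (fun τ => by rw [hx, smul_zero])
  obtain ⟨K₀, hK₀, hK₀N⟩ := exists_level_fixingSubgroup_eq S N F₀ hF₀ hF₀N hIN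
  obtain ⟨ζ, hζ⟩ := Levels.exists_primitiveRoot_Qbar p
  have hζS := Levels.isUnramifiedOutside_adjoin_primitiveRoot p S hpS hζ
  obtain ⟨K, hKdef⟩ : ∃ K : IntermediateField ℚ Qb, K = K₀ ⊔ IntermediateField.adjoin ℚ {ζ} :=
    ⟨_, rfl⟩
  have hK : K.IsUnramifiedOutside S := by
    rw [hKdef]
    exact hK₀.sup hζS
  have hζK : ζ ∈ K := by
    rw [hKdef]
    exact (le_sup_right : IntermediateField.adjoin ℚ {ζ} ≤ K₀ ⊔ IntermediateField.adjoin ℚ {ζ})
      (IntermediateField.mem_adjoin_simple_self ℚ ζ)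
  have hKT : ∀ σ : GQ, σ ∈ K.fixingSubgroup → ∀ x : J, p • x = 0 → σ • x = x := by
    intro σ hσ x hx
    have h1 : σ ∈ N := by
      rw [← hK₀N]
      refine IntermediateField.fixingSubgroup_antitone ?_ hσ
      rw [hKdef]
      exact le_sup_left
    exact h1 x hx
  have hA : (LevelHom K S T).Finite := finite_levelHom p hp2 S hpS K hK hζ hζK T hT0
  haveI : Finite (LevelHom K S T) := hA.to_subtype
  haveI : K.fixingSubgroup.FiniteIndex := finiteIndex_fixingSubgroup' K hK.1
  -- the Kummer cocycle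
  have hδmem : ∀ z : J, (∀ τ : GQ, τ • (p • z) = p • z) → ∀ s : GQ, s • z - z ∈ T := by
    intro z hz s
    rw [hTmem, nsmul_sub, ← smul_nsmul_comm', hz s, sub_self]
  have hδadd : ∀ z : J, (∀ τ : GQ, τ • (p • z) = p • z) → ∀ g h : K.fixingSubgroup,
      ((g * h : K.fixingSubgroup) : GQ) • z - z = ((g : GQ) • z - z) + ((h : GQ) • z - z) := by
    intro z hz g h
    have e : (g : GQ) • ((h : GQ) • z - z) = (h : GQ) • z - z :=
      hKT g g.2 _ ((hTmem _).mp (hδmem z hz h))
    rw [smul_sub] at e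
    rw [Subgroup.coe_mul, mul_smul, sub_eq_iff_eq_add.mp e]
    abel
  have hδlev : ∀ z : J, (∀ τ : GQ, τ • (p • z) = p • z) →
      ∃ F : IntermediateField ℚ Qb, F.IsUnramifiedOutside S ∧
        ∀ s : GQ, s ∈ F.fixingSubgroup → s • z = z := by
    intro z hz
    obtain ⟨F, hF, hFH⟩ := exists_level_fixingSubgroup_eq S (MulAction.stabilizer GQ z) (Fx z)
      (hFxfin z) (fun σ hσ => MulAction.mem_stabilizer_iff.mpr (hFx z σ hσ))
      (fun q hq A hA σ hσ => MulAction.mem_stabilizer_iff.mpr (hunr q hq A hA σ hσ z hz))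
    refine ⟨F, hF, fun s hs => ?_⟩
    rw [hFH] at hs
    exact MulAction.mem_stabilizer_iff.mp hs
  -- the fixed points and the division points
  have hfix : ∀ (y : ↥(FixedPoints.addSubgroup GQ J)) (τ : GQ), τ • (y : J) = y := fun y τ => y.2 τ
  choose zf hzf using fun y : ↥(FixedPoints.addSubgroup GQ J) => hdiv (y : J) (hfix y)
  have hz : ∀ (y : ↥(FixedPoints.addSubgroup GQ J)) (τ : GQ), τ • (p • zf y) = p • zf y := by
    intro y τ
    rw [hzf y]
    exact hfix y τ
  -- first invariant: the Kummer homomorphism on `Gal(ℚ̄/K)`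
  let a : ↥(FixedPoints.addSubgroup GQ J) → LevelHom K S T := fun y =>
    ⟨fun s => ⟨(s : GQ) • zf y - zf y, hδmem (zf y) (hz y) s⟩,
      ⟨fun g h => Subtype.ext (hδadd (zf y) (hz y) g h), by
        obtain ⟨F, hF, hFz⟩ := hδlev (zf y) (hz y)
        refine ⟨F, hF, fun g s hs => Subtype.ext ?_⟩
        show ((g * s : K.fixingSubgroup) : GQ) • zf y - zf y = (g : GQ) • zf y - zf y
        rw [Subgroup.coe_mul, mul_smul, hFz s hs]⟩⟩
  have ha : ∀ (y y' : ↥(FixedPoints.addSubgroup GQ J)), a y = a y' →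
      ∀ t : GQ, t ∈ K.fixingSubgroup → t • (zf y - zf y') = zf y - zf y' := by
    intro y y' h t ht
    have h1 := congrArg (fun f : LevelHom K S T => ((f.1 ⟨t, ht⟩ : T) : J)) h
    have h2 : t • zf y - zf y = t • zf y' - zf y' := h1
    rw [smul_sub, sub_eq_sub_iff_sub_eq_sub]
    exact h2
  -- second invariant: a map `GQ / Gal(ℚ̄/K) → J[p]`
  have hwmem : ∀ (y y' : ↥(FixedPoints.addSubgroup GQ J)) (s : GQ),
      s • (zf y - zf y') - (zf y - zf y') ∈ T := by
    intro y y' s
    refine hδmem _ (fun τ => ?_) s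
    rw [nsmul_sub, smul_sub, hz y τ, hz y' τ]
  let r : LevelHom K S T → ↥(FixedPoints.addSubgroup GQ J) := Function.invFun a
  let Φ : ↥(FixedPoints.addSubgroup GQ J) → LevelHom K S T × ((GQ ⧸ K.fixingSubgroup) → T) :=
    fun y => (a y, fun c => ⟨c.out • (zf y - zf (r (a y))) - (zf y - zf (r (a y))),
      hwmem y (r (a y)) c.out⟩)
  have hΦ : ∀ y y' : ↥(FixedPoints.addSubgroup GQ J), Φ y = Φ y' →
      y - y' ∈ (nsmulAddMonoidHom (α := ↥(FixedPoints.addSubgroup GQ J)) p).range := by
    intro y y' h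
    have h1 : a y = a y' := congrArg Prod.fst h
    have h2 : ∀ c : GQ ⧸ K.fixingSubgroup,
        c.out • (zf y - zf (r (a y))) - (zf y - zf (r (a y))) =
          c.out • (zf y' - zf (r (a y'))) - (zf y' - zf (r (a y'))) := fun c =>
      congrArg (fun f : LevelHom K S T × ((GQ ⧸ K.fixingSubgroup) → T) => ((f.2 c : T) : J)) h
    have hu : ∀ s : GQ, s • (zf y - zf y') = zf y - zf y' := by
      intro s
      obtain ⟨t, ht⟩ := QuotientGroup.mk_out_eq_mul K.fixingSubgroup s
      have h3 := h2 (QuotientGroup.mk s)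
      rw [← h1] at h3
      have h4 : (QuotientGroup.mk s : GQ ⧸ K.fixingSubgroup).out • (zf y - zf y') =
          zf y - zf y' := by
        have e : zf y - zf y' = (zf y - zf (r (a y))) - (zf y' - zf (r (a y))) := by abel
        rw [e, smul_sub, sub_eq_sub_iff_sub_eq_sub]
        exact h3
      rw [ht, mul_smul, ha y y' h1 t t.2] at h4
      exact h4
    refine ⟨⟨zf y - zf y', fun s => hu s⟩, Subtype.ext ?_⟩
    show p • (zf y - zf y') = (y : J) - (y' : J)
    rw [nsmul_sub, hzf y, hzf y']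
  -- conclusion
  have hsurj : Function.Surjective (fun c : Set.range Φ =>
      (QuotientAddGroup.mk (Classical.choose c.2) :
        ↥(FixedPoints.addSubgroup GQ J) ⧸
          (nsmulAddMonoidHom (α := ↥(FixedPoints.addSubgroup GQ J)) p).range)) := by
    intro q
    obtain ⟨y, rfl⟩ := QuotientAddGroup.mk_surjective q
    refine ⟨⟨Φ y, y, rfl⟩, ?_⟩
    have h1 : Φ (Classical.choose (⟨y, rfl⟩ : ∃ y', Φ y' = Φ y)) = Φ y :=
      Classical.choose_spec (⟨y, rfl⟩ : ∃ y', Φ y' = Φ y)
    have h2 := hΦ _ _ h1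
    rw [QuotientAddGroup.eq]
    have e : -Classical.choose (⟨y, rfl⟩ : ∃ y', Φ y' = Φ y) + y =
        -(Classical.choose (⟨y, rfl⟩ : ∃ y', Φ y' = Φ y) - y) := by abel
    rw [e]
    exact neg_mem h2
  haveI : Finite (↥(FixedPoints.addSubgroup GQ J) ⧸
      (nsmulAddMonoidHom (α := ↥(FixedPoints.addSubgroup GQ J)) p).range) :=
    Finite.of_surjective _ hsurj
  exact AddSubgroup.finiteIndex_of_finite_quotient

end Descent

end Fermat.Agent.MW.WMW.KummerDescent
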