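/-
MW / WMW (helper73): **division points of rational classes are unramified at the good primes.**

For a prime `ℓ ∤ N` with reduction data at a place `A` above `ℓ` (`ReductionInputsModL A N`: a
theorem for `ℓ ≥ 5`, and for `ℓ = 3`, `2 ∣ N`, `ℓ = 2`, `3 ∣ N`), and `m` prime to `ℓ`: if
`σ` lies in the inertia group of `A` and fixes `m • z`, then `σ` fixes `z`.

Proof: `w := σ • z - z` is killed by `m`, and `red(w) = red(σ • z) - red(z) = 0` because the
reduction map is invariant under inertia (`Padic.GenPosGlue.reductionModL_smul_inertia`); so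
`w = 0` by S18 (`ESJ.eq_zero_of_reductionModL_eq_zero`).

Consequence (`kummerCocycle_inertia`): for `y = m • z` fixed by `G_ℚ`, the Kummer map
`σ ↦ σ • z - z` vanishes on the inertia groups at all `ℓ ≥ 5`, `ℓ ∤ m N`.
-/
import Mathlib
import Fermat.Agent.ESJ.Red.R2Good
import Fermat.Agent.Padic.GenPosGlue

set_option autoImplicit false

namespace Fermat.Agent.MW.WMW

open ModularCurve

local notation "Qb" => AlgebraicClosure ℚ
local notation "GQ" => (AlgebraicClosure ℚ ≃ₐ[ℚ] AlgebraicClosure ℚ)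

/-- **Inertia at a good place fixes `m`-division points of inertia-fixed classes** (`ℓ ∤ m N`),
given reduction data at the place. -/
theorem smul_eq_of_mem_inertia_of_inputs (N : ℕ) [NeZero N] {ℓ : ℕ} (hℓ : ℓ.Prime)
    (hℓN : ¬ ℓ ∣ N) (A : ValuationSubring Qb) (hA : A.LiesOverPrime ℓ)
    (h : ReductionInputsModL A N) (m : ℕ) (hm : ¬ ℓ ∣ m) (z : JZero N) (σ : GQ)
    (hσ : σ ∈ A.inertiaSubgroupIn ℚ) (hfix : σ • (m • z) = m • z) : σ • z = z := by
  have e : σ • (m • z) = m • (σ • z) :=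
    map_nsmul (DistribMulAction.toAddMonoidHom (JZero N) σ) m z
  have hw : m • (σ • z - z) = 0 := by
    rw [nsmul_sub, ← e, hfix, sub_self]
  have hred : reductionModL A N (σ • z - z) = 0 := by
    rw [map_sub, Fermat.Agent.Padic.GenPosGlue.reductionModL_smul_inertia h hσ z, sub_self]
  exact sub_eq_zero.mp
    (Fermat.Agent.ESJ.eq_zero_of_reductionModL_eq_zero N hℓ hℓN A hA h m hm _ hw hred)

/-- **Inertia at `ℓ ≥ 5`, `ℓ ∤ m N`, fixes `m`-division points of inertia-fixed classes.** -/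
theorem smul_eq_of_mem_inertia (N : ℕ) [NeZero N] {ℓ : ℕ} (hℓ : ℓ.Prime) (h5 : 5 ≤ ℓ)
    (hℓN : ¬ ℓ ∣ N) (A : ValuationSubring Qb) (hA : A.LiesOverPrime ℓ)
    (m : ℕ) (hm : ¬ ℓ ∣ m) (z : JZero N) (σ : GQ)
    (hσ : σ ∈ A.inertiaSubgroupIn ℚ) (hfix : σ • (m • z) = m • z) : σ • z = z :=
  smul_eq_of_mem_inertia_of_inputs N hℓ hℓN A hA
    (Fermat.Agent.ESJ.reductionInputsModL_good N ℓ hℓ hℓN (Or.inl h5) A hA) m hm z σ hσ hfix

/-- **The Kummer cocycle of a rational class is unramified at `ℓ ≥ 5`, `ℓ ∤ m N`**: if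
`m • z` is fixed by the whole Galois group, then `σ • z - z = 0` for every `σ` in an inertia
group above `ℓ`. -/
theorem kummerCocycle_inertia (N : ℕ) [NeZero N] {ℓ : ℕ} (hℓ : ℓ.Prime) (h5 : 5 ≤ ℓ)
    (hℓN : ¬ ℓ ∣ N) (A : ValuationSubring Qb) (hA : A.LiesOverPrime ℓ)
    (m : ℕ) (hm : ¬ ℓ ∣ m) (z : JZero N) (hfix : ∀ σ : GQ, σ • (m • z) = m • z)
    (σ : GQ) (hσ : σ ∈ A.inertiaSubgroupIn ℚ) : σ • z - z = 0 :=
  sub_eq_zero.mpr (smul_eq_of_mem_inertia N hℓ h5 hℓN A hA m hm z σ hσ (hfix σ))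

end Fermat.Agent.MW.WMW
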