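/-
MW (S17), weak Mordell–Weil for `J₀(N)`: the assembly.

For an odd prime `p`, `p • J₀(N)(ℚ)` has finite index in `J₀(N)(ℚ) = JZero N ^ GQ`
(`finiteIndex_nsmul_of`), given

* `hsm`  : every class of `JZero N` is fixed by an open subgroup of `GQ`;
* `hdiv` : `JZero N` is `p`-divisible.

Inputs on main: the abstract Kummer descent `KummerDescent.finiteIndex_nsmul_fixedPoints`
(with `S` = the primes dividing `6 p N`), finiteness of the torsion `ESJ.torsionFinite`, and the
unramifiedness of the Kummer cocycle at `ℓ ≥ 5`, `ℓ ∤ p N` (`MW.WMW.smul_eq_of_mem_inertia`).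
-/
import Mathlib
import Fermat.Agent.MW.WMW.KummerDescent
import Fermat.Agent.MW.WMW.Unram
import Fermat.Agent.ESJ.Jac.Main

set_option autoImplicit false

namespace Fermat.Agent.MW.WMW.JZeroInst

open ModularCurve AlgebraicCurve ExtCitation

local notation "Qb" => AlgebraicClosure ℚ
local notation "GQ" => (AlgebraicClosure ℚ ≃ₐ[ℚ] AlgebraicClosure ℚ)

/-- The primes dividing `6 p N`. -/
def badPrimes (N p : ℕ) : Finset Nat.Primes := ((6 * p * N).primeFactors).subtype Nat.Prime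

theorem mem_badPrimes (N p : ℕ) [NeZero N] (hp : p ≠ 0) (q : Nat.Primes) :
    q ∈ badPrimes N p ↔ (q : ℕ) ∣ 6 * p * N := by
  constructor
  · intro h
    exact (Nat.mem_primeFactors.mp (Finset.mem_subtype.mp h)).2.1
  · intro h
    exact Finset.mem_subtype.mpr (Nat.mem_primeFactors.mpr
      ⟨q.2, h, mul_ne_zero (mul_ne_zero (by norm_num) hp) (NeZero.ne N)⟩)

/-- `J₀(N)[p]` is finite. -/
theorem finite_torsion (N : ℕ) [NeZero N] (p : ℕ) (hp : 0 < p) :
    {x : JZero N | p • x = 0}.Finite := by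
  refine (Fermat.Agent.ESJ.torsionFinite N p hp).subset fun x hx => ?_
  rw [SetLike.mem_coe, Pic0.mem_torsion, natCast_zsmul]
  exact hx

/-- Outside the primes dividing `6 p N` the inertia groups fix the `p`-division points of the
rational classes. -/
theorem unramified (N : ℕ) [NeZero N] (p : ℕ) (hp : p ≠ 0) (q : Nat.Primes)
    (hq : q ∉ badPrimes N p) (A : ValuationSubring Qb) (hA : A.LiesOverPrime (q : ℕ)) (σ : GQ)
    (hσ : σ ∈ A.inertiaSubgroupIn ℚ) (z : JZero N) (hz : ∀ τ : GQ, τ • (p • z) = p • z) :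
    σ • z = z := by
  rw [mem_badPrimes N p hp] at hq
  have hqp : (q : ℕ).Prime := q.2
  have h6 : ¬ (q : ℕ) ∣ 6 := fun h => hq (Dvd.dvd.mul_right (Dvd.dvd.mul_right h p) N)
  have hqp' : ¬ (q : ℕ) ∣ p := fun h => hq (Dvd.dvd.mul_right (Dvd.dvd.mul_left h 6) N)
  have hqN : ¬ (q : ℕ) ∣ N := fun h => hq (Dvd.dvd.mul_left h (6 * p))
  have h5 : 5 ≤ (q : ℕ) := by
    by_contra hlt
    have h2 := hqp.two_le
    have hcases : (q : ℕ) = 2 ∨ (q : ℕ) = 3 ∨ (q : ℕ) = 4 := by omega
    rcases hcases with h | h | h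
    · exact h6 (by rw [h]; norm_num)
    · exact h6 (by rw [h]; norm_num)
    · rw [h] at hqp
      exact absurd hqp (by norm_num)
  exact smul_eq_of_mem_inertia N hqp h5 hqN A hA p hqp' z σ hσ (hz σ)

/-- **Weak Mordell–Weil for `J₀(N)`**, from smoothness of the Galois action and
`p`-divisibility. -/
theorem finiteIndex_nsmul_of (N : ℕ) [NeZero N] (p : ℕ) [Fact p.Prime] (hp2 : p ≠ 2)
    (hsm : ∀ x : JZero N, ∃ F : IntermediateField ℚ Qb, FiniteDimensional ℚ F ∧
      ∀ σ : GQ, σ ∈ F.fixingSubgroup → σ • x = x)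
    (hdiv : ∀ x : JZero N, ∃ y : JZero N, p • y = x) :
    (nsmulAddMonoidHom (α := ↥(FixedPoints.addSubgroup GQ (JZero N))) p).range.FiniteIndex := by
  have hp : p.Prime := Fact.out
  refine KummerDescent.finiteIndex_nsmul_fixedPoints p hp2 (badPrimes N p) ?_ hsm
    (finite_torsion N p hp.pos) (fun y _ => hdiv y)
    (fun q hq A hA σ hσ z hz => unramified N p hp.ne_zero q hq A hA σ hσ z hz)
  rw [mem_badPrimes N p hp.ne_zero]
  exact Dvd.dvd.mul_right (Dvd.dvd.mul_left (dvd_refl p) 6) N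

/-- The case `p = 3`. -/
theorem finiteIndex_three_of (N : ℕ) [NeZero N]
    (hsm : ∀ x : JZero N, ∃ F : IntermediateField ℚ Qb, FiniteDimensional ℚ F ∧
      ∀ σ : GQ, σ ∈ F.fixingSubgroup → σ • x = x)
    (hdiv : ∀ x : JZero N, ∃ y : JZero N, 3 • y = x) :
    (nsmulAddMonoidHom (α := ↥(FixedPoints.addSubgroup GQ (JZero N))) 3).range.FiniteIndex :=
  haveI : Fact (Nat.Prime 3) := ⟨Nat.prime_three⟩
  finiteIndex_nsmul_of N 3 (by norm_num) hsm hdiv

end Fermat.Agent.MW.WMW.JZeroInst
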