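/-
MW (S17), weak Mordell–Weil for `J₀(N)`, final form: for an odd prime `p`,

  `p`-divisibility of `JZero N`  ⟹  `p • J₀(N)(ℚ)` has finite index in `J₀(N)(ℚ)`.

(`weakMW`, `weakMW_three`.)  The only remaining input is (DIV).  Everything else is on main:
the abstract Kummer descent (`KummerDescent.finiteIndex_nsmul_fixedPoints`), the finiteness of
the torsion (`ESJ.torsionFinite`), the unramifiedness of the Kummer cocycle (`MW/WMW/Unram`) and
the smoothness of the Galois action (`Smooth.exists_open_stabilizer`).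
-/
import Mathlib
import Fermat.Agent.MW.WMW.JZero
import Fermat.Agent.MW.WMW.Smooth

set_option autoImplicit false

namespace Fermat.Agent.MW.WMW.Final

open ModularCurve AlgebraicCurve

local notation "Qb" => AlgebraicClosure ℚ
local notation "GQ" => (AlgebraicClosure ℚ ≃ₐ[ℚ] AlgebraicClosure ℚ)

/-- **Weak Mordell–Weil for `J₀(N)`** from `p`-divisibility, `p` an odd prime. -/
theorem weakMW (N : ℕ) [NeZero N] (p : ℕ) [Fact p.Prime] (hp2 : p ≠ 2)
    (hdiv : ∀ x : JZero N, ∃ y : JZero N, p • y = x) :
    (nsmulAddMonoidHom (α := ↥(FixedPoints.addSubgroup GQ (JZero N))) p).range.FiniteIndex :=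
  JZeroInst.finiteIndex_nsmul_of N p hp2 (Smooth.exists_open_stabilizer N) hdiv

/-- The case `p = 3`. -/
theorem weakMW_three (N : ℕ) [NeZero N] (hdiv : ∀ x : JZero N, ∃ y : JZero N, 3 • y = x) :
    (nsmulAddMonoidHom (α := ↥(FixedPoints.addSubgroup GQ (JZero N))) 3).range.FiniteIndex :=
  JZeroInst.finiteIndex_three_of N (Smooth.exists_open_stabilizer N) hdiv

/-- The interface form: from divisibility by every positive integer. -/
theorem weakMW_three_of_divisible (N : ℕ) [NeZero N]
    (hdiv : ∀ n : ℕ, 0 < n → ∀ x : JZero N, ∃ y : JZero N, n • y = x) :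
    (nsmulAddMonoidHom (α := ↥(FixedPoints.addSubgroup GQ (JZero N))) 3).range.FiniteIndex :=
  weakMW_three N (hdiv 3 (by norm_num))

end Fermat.Agent.MW.WMW.Final
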