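/-
MW (S17): weak Mordell–Weil (`MW/WMW/Final.lean`) + the descent (`MW/WMW/DescentN.lean`):

  (DIV at `n = 3`) + (HT: a Northcott quasi-parallelogram height, on any group into which the
  rational points inject)  ⟹  `J₀(N)(ℚ)` is finitely generated.
-/
import Mathlib
import Fermat.Agent.MW.WMW.Final
import Fermat.Agent.MW.WMW.DescentN

set_option autoImplicit false

namespace Fermat.Agent.MW.WMW.FinalFG

open ModularCurve AlgebraicCurve

/-- **S17 modulo (DIV at `n = 3`) and (HT)**: weak Mordell–Weil + descent, the height living on a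
group `J` into which the rational points inject. -/
theorem fg_of_divisible_of_height (N : ℕ) [NeZero N]
    (hdiv : ∀ x : JZero N, ∃ y : JZero N, 3 • y = x)
    {J : Type*} [AddCommGroup J]
    (f : ↥(FixedPoints.addSubgroup (AlgebraicClosure ℚ ≃ₐ[ℚ] AlgebraicClosure ℚ) (JZero N)) →+ J)
    (hf : Function.Injective f) (q : J → ℝ) (h0 : ∀ x, 0 ≤ q x)
    (hP : ∃ C : ℝ, ∀ x y, |q (x + y) + q (x - y) - 2 * (q x + q y)| ≤ C)
    (hN : ∀ T : ℝ, {x | q x ≤ T}.Finite) :
    AddGroup.FG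
      ↥(FixedPoints.addSubgroup (AlgebraicClosure ℚ ≃ₐ[ℚ] AlgebraicClosure ℚ) (JZero N)) :=
  Fermat.Agent.MW.WMW.DescentN.fg_of_height_map f hf q (n := 3) (by norm_num) h0 hP hN
    (Fermat.Agent.MW.WMW.Final.weakMW_three N hdiv)

/-- The same with the height on `JZero N` itself. -/
theorem fg_of_divisible_of_height_self (N : ℕ) [NeZero N]
    (hdiv : ∀ x : JZero N, ∃ y : JZero N, 3 • y = x)
    (q : JZero N → ℝ) (h0 : ∀ x, 0 ≤ q x)
    (hP : ∃ C : ℝ, ∀ x y, |q (x + y) + q (x - y) - 2 * (q x + q y)| ≤ C)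
    (hN : ∀ T : ℝ, {x : JZero N | (∀ σ : AlgebraicClosure ℚ ≃ₐ[ℚ] AlgebraicClosure ℚ, σ • x = x) ∧
      q x ≤ T}.Finite) :
    AddGroup.FG
      ↥(FixedPoints.addSubgroup (AlgebraicClosure ℚ ≃ₐ[ℚ] AlgebraicClosure ℚ) (JZero N)) := by
  classical
  -- the height on the fixed points
  obtain ⟨C, hC⟩ := hP
  have hNc : Northcott (fun x : ↥(FixedPoints.addSubgroup
      (AlgebraicClosure ℚ ≃ₐ[ℚ] AlgebraicClosure ℚ) (JZero N)) => q (x : JZero N)) := ⟨fun T => by
    have := (hN T).preimage (f := fun x : ↥(FixedPoints.addSubgroup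
      (AlgebraicClosure ℚ ≃ₐ[ℚ] AlgebraicClosure ℚ) (JZero N)) => (x : JZero N))
      (Subtype.val_injective.injOn)
    refine this.subset fun x hx => ⟨fun σ => x.2 σ, hx⟩⟩
  exact Fermat.Agent.MW.WMW.DescentN.fg_of_quasiParallelogram
    (h := fun x : ↥(FixedPoints.addSubgroup
      (AlgebraicClosure ℚ ≃ₐ[ℚ] AlgebraicClosure ℚ) (JZero N)) => q (x : JZero N)) (C := C)
    (n := 3) (by norm_num) (Fermat.Agent.MW.WMW.Final.weakMW_three N hdiv) (fun x => h0 _)
    (fun x y => hC x y)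

end Fermat.Agent.MW.WMW.FinalFG
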