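import Mathlib

/-!
# Weak Mordell–Weil, abstract core (MW / WMW)

`Γ` a group acting on an abelian group `A` by additive automorphisms, `n : ℕ`.
If

* every `Γ`-fixed element of `A` is divisible by `n` in `A`,
* `A[n]` is finite,
* `Γ₁ ≤ Γ` has finite index, and the restrictions to `Γ₁` of the "Kummer cocycles"
  `σ ↦ σ • z - z` (`z : A` with `n • z` fixed by `Γ`) all lie in one finite set `𝓗`,

then `n • A^Γ` has finite index in `A^Γ`, in the exact shape consumed by Mathlib's
`AddCommGroup.fg_of_descent`.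

No cohomology formalism: a cocycle is determined by its restriction to `Γ₁` and its values on a
transversal of `Γ ⧸ Γ₁`, and two `n`-th roots with the same cocycle differ by a fixed element.
-/

set_option autoImplicit false

namespace Fermat.Agent.MW.WMW

variable {Γ A : Type*} [Group Γ] [AddCommGroup A] [DistribMulAction Γ A]

/-- The Kummer cocycle `σ ↦ σ • z - z` of `z : A`. -/
def kummerCoc (z : A) : Γ → A := fun σ => σ • z - z

theorem kummerCoc_apply (z : A) (σ : Γ) : kummerCoc z σ = σ • z - z := rfl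

/-- The cocycle relation. -/
theorem kummerCoc_mul (z : A) (σ τ : Γ) :
    kummerCoc z (σ * τ) = σ • kummerCoc z τ + kummerCoc z σ := by
  simp only [kummerCoc, mul_smul, smul_sub]
  abel

/-- The values of the Kummer cocycle of an `n`-th root of a fixed element are `n`-torsion. -/
theorem nsmul_kummerCoc_eq_zero (n : ℕ) (z : A) (hz : ∀ σ : Γ, σ • (n • z) = n • z) (σ : Γ) :
    n • kummerCoc z σ = 0 := by
  rw [kummerCoc, smul_sub, ← smul_comm σ n z, hz σ, sub_self]

/-- Two elements with the same Kummer cocycle differ by a fixed element. -/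
theorem smul_sub_eq_of_kummerCoc_eq {z z' : A} (h : kummerCoc (Γ := Γ) z = kummerCoc z') (σ : Γ) :
    σ • (z - z') = z - z' := by
  have h1 : σ • z - z = σ • z' - z' := congrFun h σ
  rw [smul_sub]
  have h2 : σ • z - σ • z' - (z - z') = (σ • z - z) - (σ • z' - z') := by abel
  rw [← sub_eq_zero, h2, h1, sub_self]

/-- A Kummer cocycle is determined by its restriction to a subgroup `Γ₁` and its values on the
canonical transversal of `Γ ⧸ Γ₁`. -/
theorem kummerCoc_eq_of_restrict_eq (Γ₁ : Subgroup Γ) {z z' : A}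
    (h1 : ∀ γ : Γ₁, kummerCoc z (γ : Γ) = kummerCoc z' (γ : Γ))
    (h2 : ∀ q : Γ ⧸ Γ₁, kummerCoc z (Quotient.out q) = kummerCoc z' (Quotient.out q)) :
    kummerCoc (Γ := Γ) z = kummerCoc z' := by
  funext σ
  set r : Γ := Quotient.out (QuotientGroup.mk σ : Γ ⧸ Γ₁) with hr
  have hmem : r⁻¹ * σ ∈ Γ₁ := by
    have : (QuotientGroup.mk r : Γ ⧸ Γ₁) = QuotientGroup.mk σ := Quotient.out_eq _
    exact QuotientGroup.eq.mp this
  have key : ∀ w : A, kummerCoc w σ = r • kummerCoc w (r⁻¹ * σ) + kummerCoc w r := by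
    intro w
    rw [← kummerCoc_mul]
    congr 1
    group
  have h1' : kummerCoc z (r⁻¹ * σ) = kummerCoc z' (r⁻¹ * σ) := h1 ⟨r⁻¹ * σ, hmem⟩
  have h2' : kummerCoc z r = kummerCoc z' r := h2 _
  rw [key z, key z', h1', h2']

/-- **Weak Mordell–Weil, abstract core.** -/
theorem finiteIndex_nsmul_range_fixedPoints (n : ℕ)
    (hdiv : ∀ y : A, (∀ σ : Γ, σ • y = y) → ∃ z : A, n • z = y)
    (Γ₁ : Subgroup Γ) [Γ₁.FiniteIndex]
    (hfinT : {t : A | n • t = 0}.Finite)
    (𝓗 : Set (Γ₁ → A)) (h𝓗 : 𝓗.Finite)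
    (hmem : ∀ z : A, (∀ σ : Γ, σ • (n • z) = n • z) →
      (fun σ : Γ₁ => (σ : Γ) • z - z) ∈ 𝓗) :
    (nsmulAddMonoidHom (α := ↥(FixedPoints.addSubgroup Γ A)) n).range.FiniteIndex := by
  classical
  set G := FixedPoints.addSubgroup Γ A with hG
  set H : AddSubgroup G := (nsmulAddMonoidHom (α := ↥G) n).range with hH
  -- an `n`-th root of every fixed element
  have hroot : ∀ y : G, ∃ z : A, n • z = (y : A) := fun y =>
    hdiv y ((FixedPoints.mem_addSubgroup Γ A _).mp y.2)
  choose zof hzof using hroot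
  have hfix : ∀ (y : G) (σ : Γ), σ • (n • zof y) = n • zof y := fun y σ => by
    rw [hzof y]
    exact (FixedPoints.mem_addSubgroup Γ A _).mp y.2 σ
  -- the finite target
  have : Finite ↥𝓗 := h𝓗.to_subtype
  have : Finite ↥{t : A | n • t = 0} := hfinT.to_subtype
  have : Finite (Γ ⧸ Γ₁) := Subgroup.finite_quotient_of_finiteIndex
  let f : G → ↥𝓗 × ((Γ ⧸ Γ₁) → ↥{t : A | n • t = 0}) := fun y =>
    (⟨fun σ : Γ₁ => (σ : Γ) • zof y - zof y, hmem (zof y) (hfix y)⟩,
      fun q => ⟨kummerCoc (zof y) (Quotient.out q),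
        nsmul_kummerCoc_eq_zero n (zof y) (hfix y) _⟩)
  -- equal invariants force congruence modulo `n • G`
  have hkey : ∀ y y' : G, f y = f y' → y - y' ∈ H := by
    intro y y' hf
    have h1 : ∀ γ : Γ₁, kummerCoc (zof y) (γ : Γ) = kummerCoc (zof y') (γ : Γ) := by
      intro γ
      have := congrArg (fun p => (p.1 : Γ₁ → A) γ) hf
      exact this
    have h2 : ∀ q : Γ ⧸ Γ₁,
        kummerCoc (zof y) (Quotient.out q) = kummerCoc (zof y') (Quotient.out q) := by
      intro q
      have := congrArg (fun p => ((p.2 q : ↥{t : A | n • t = 0}) : A)) hf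
      exact this
    have hc := kummerCoc_eq_of_restrict_eq Γ₁ h1 h2
    have hw : zof y - zof y' ∈ G :=
      (FixedPoints.mem_addSubgroup Γ A _).mpr fun σ => smul_sub_eq_of_kummerCoc_eq hc σ
    refine ⟨⟨zof y - zof y', hw⟩, ?_⟩
    apply Subtype.ext
    simp only [nsmulAddMonoidHom_apply, AddSubgroup.coe_nsmul, AddSubgroup.coe_sub]
    rw [smul_sub, hzof y, hzof y']
  -- hence the quotient is finite
  have hinj : Function.Injective (fun q : G ⧸ H => f (Quotient.out q)) := by
    intro q q' hq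
    have h := hkey _ _ hq
    have h3 : (QuotientAddGroup.mk (Quotient.out q) : G ⧸ H) =
        QuotientAddGroup.mk (Quotient.out q') := by
      rw [QuotientAddGroup.eq]
      have : -(Quotient.out q) + Quotient.out q' = -(Quotient.out q - Quotient.out q') := by abel
      rw [this]
      exact H.neg_mem h
    have e1 : (QuotientAddGroup.mk (Quotient.out q) : G ⧸ H) = q := Quotient.out_eq _
    have e2 : (QuotientAddGroup.mk (Quotient.out q') : G ⧸ H) = q' := Quotient.out_eq _
    rw [← e1, ← e2, h3]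
  have : Finite (G ⧸ H) := Finite.of_injective _ hinj
  exact AddSubgroup.finiteIndex_of_finite_quotient

end Fermat.Agent.MW.WMW
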