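import Mathlib
import Fermat.Agent.PT.G.KumBridge
import Fermat.Agent.PT.G.CycloField

set_option autoImplicit false
set_option linter.style.haveILetI false

namespace Fermat.Agent.MW.WMW.FiniteHom

local notation "Qb" => AlgebraicClosure ℚ
local notation "GQ" => (AlgebraicClosure ℚ ≃ₐ[ℚ] AlgebraicClosure ℚ)

open ExtCitation

local instance isAlgebraicQbar_fh : Algebra.IsAlgebraic ℚ Qb := AlgebraicClosure.isAlgebraic ℚ
local instance isAlgClosureQbar_fh : IsAlgClosure ℚ Qb := ⟨inferInstance, inferInstance⟩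
local instance normalQbar_fh : Normal ℚ Qb := IsAlgClosure.normal ℚ Qb
local instance isSeparableQbar_fh : Algebra.IsSeparable ℚ Qb :=
  Algebra.IsAlgebraic.isSeparable_of_perfectField
local instance isGaloisQbar_fh : IsGalois ℚ Qb := ⟨⟩

/-- Every algebraic number is integral at all but finitely many primes. -/
theorem exists_nat_forall_mem (x : Qb) :
    ∃ c : ℕ, c ≠ 0 ∧ ∀ (A : ValuationSubring Qb) (q : ℕ), q.Prime → A.LiesOverPrime q →
      ¬ q ∣ c → x ∈ A := by
  have hx : IsAlgebraic ℤ x :=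
    (IsFractionRing.isAlgebraic_iff ℤ ℚ Qb).mpr (Algebra.IsAlgebraic.isAlgebraic x)
  obtain ⟨y, hy0, hy⟩ := hx.exists_integral_multiple
  refine ⟨y.natAbs, Int.natAbs_ne_zero.mpr hy0, fun A q hq hA hqc => ?_⟩
  have h1 : y • x ∈ A := Fermat.Agent.Lib.ValuationIntegral.mem_of_isIntegral_int A hy
  have h2 : (y : Qb) ∉ A.nonunits :=
    Fermat.Agent.Lib.ValuationIntegral.intCast_notMem_nonunits A hq hA
      (fun h => hqc (Int.natCast_dvd.mp h))
  have h3 : (y : Qb) ∈ A := intCast_mem A y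
  have hv : A.valuation (y : Qb) = 1 :=
    le_antisymm ((A.valuation_le_one_iff _).mpr h3)
      (not_lt.mp (fun h => h2 (A.mem_nonunits_iff.mpr h)))
  have h4 : A.valuation (y • x) ≤ 1 := (A.valuation_le_one_iff _).mpr h1
  rw [zsmul_eq_mul, map_mul, hv, one_mul] at h4
  exact (A.valuation_le_one_iff x).mp h4

/-- The finite set of primes dividing a natural number. -/
def primesDvd (c : ℕ) : Finset Nat.Primes := c.primeFactors.subtype Nat.Prime

theorem notMem_primesDvd {c : ℕ} (hc : c ≠ 0) {q : Nat.Primes} (hq : q ∉ primesDvd c) :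
    ¬ (q : ℕ) ∣ c := by
  intro h
  exact hq (Finset.mem_subtype.mpr (Nat.mem_primeFactors.mpr ⟨q.2, h, hc⟩))

/-- Only finitely many primes ramify in a finite extension of `ℚ`. -/
theorem exists_isUnramifiedOutside (K : IntermediateField ℚ Qb) [FiniteDimensional ℚ K] :
    ∃ S₀ : Finset Nat.Primes, K.IsUnramifiedOutside S₀ := by
  classical
  obtain ⟨α, hα⟩ := Field.exists_primitive_element ℚ K
  set a : Qb := (α : Qb) with ha
  have hfix : ∀ σ : GQ, σ a = a → σ ∈ K.fixingSubgroup := by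
    intro σ hσ
    have hle : IntermediateField.adjoin ℚ {α}
        ≤ (IntermediateField.fixedField (Subgroup.zpowers σ)).comap K.val := by
      rw [IntermediateField.adjoin_simple_le_iff]
      change a ∈ IntermediateField.fixedField (Subgroup.zpowers σ)
      rw [IntermediateField.mem_fixedField_iff]
      intro g hg
      exact Fermat.Agent.PT.Levels.apply_eq_of_mem_zpowers hg hσ
    rw [hα] at hle
    rw [IntermediateField.mem_fixingSubgroup_iff]
    intro x hx
    have h2 : (⟨x, hx⟩ : K) ∈ (IntermediateField.fixedField (Subgroup.zpowers σ)).comap K.val :=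
      hle IntermediateField.mem_top
    change x ∈ IntermediateField.fixedField (Subgroup.zpowers σ) at h2
    rw [IntermediateField.mem_fixedField_iff] at h2
    exact h2 σ (Subgroup.mem_zpowers σ)
  have hint : IsIntegral ℚ a := (Algebra.IsAlgebraic.isAlgebraic a).isIntegral
  set f := minpoly ℚ a with hf
  have hf0 : f ≠ 0 := minpoly.ne_zero hint
  set R : Finset Qb := (f.rootSet Qb).toFinset with hR
  have hmemR : ∀ x : Qb, x ∈ R ↔ Polynomial.aeval x f = 0 := by
    intro x
    rw [hR, Set.mem_toFinset, Polynomial.mem_rootSet_of_ne hf0]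
  set d : Qb := ∏ β ∈ R.erase a, (β - a) with hd
  have hd0 : d ≠ 0 := by
    rw [hd, Finset.prod_ne_zero_iff]
    intro β hβ
    exact sub_ne_zero.mpr (Finset.ne_of_mem_erase hβ)
  choose c hc0 hc using exists_nat_forall_mem
  set C : ℕ := c d⁻¹ * ∏ β ∈ R, c β with hC
  have hC0 : C ≠ 0 := by
    rw [hC]
    exact mul_ne_zero (hc0 _) (Finset.prod_ne_zero_iff.mpr fun β _ => hc0 β)
  refine ⟨primesDvd C, ‹FiniteDimensional ℚ K›, fun q hq A hA σ hσ => hfix σ ?_⟩
  have hqC : ¬ (q : ℕ) ∣ C := notMem_primesDvd hC0 hq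
  have hdA : d⁻¹ ∈ A := hc d⁻¹ A q q.2 hA (fun h => hqC (Dvd.dvd.mul_right h _))
  have hRA : ∀ β ∈ R, β ∈ A := fun β hβ =>
    hc β A q q.2 hA (fun h => hqC (Dvd.dvd.mul_left (h.trans (Finset.dvd_prod_of_mem c hβ)) _))
  have haR : a ∈ R := (hmemR a).mpr (minpoly.aeval ℚ a)
  have hσR : σ a ∈ R := by
    have h0 : Polynomial.aeval (σ a) f = σ (Polynomial.aeval a f) :=
      Polynomial.aeval_algHom_apply (σ : Qb →ₐ[ℚ] Qb) a f
    rw [hmemR, h0, minpoly.aeval, map_zero]
  by_contra hne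
  have hmem : σ a ∈ R.erase a := Finset.mem_erase.mpr ⟨hne, hσR⟩
  have hσ' := (Fermat.Agent.PT.Levels.mem_inertiaSubgroupIn_iff A σ).mp hσ
  have h1 : σ a - a ∈ A.nonunits := hσ'.2 a (hRA a haR)
  have h2 : d = (σ a - a) * ∏ β ∈ (R.erase a).erase (σ a), (β - a) := by
    rw [hd]
    exact (Finset.mul_prod_erase (R.erase a) (fun β => β - a) hmem).symm
  have h3 : ∏ β ∈ (R.erase a).erase (σ a), (β - a) ∈ A :=
    Subring.prod_mem A.toSubring fun β hβ =>
      A.sub_mem (hRA β (Finset.mem_of_mem_erase (Finset.mem_of_mem_erase hβ))) (hRA a haR)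
  have h4 : d ∈ A.nonunits := by
    rw [h2]
    exact Fermat.Agent.Lib.ValuationIntegral.mul_mem_nonunits A h1 h3
  have h5 : d * d⁻¹ ∈ A.nonunits := Fermat.Agent.Lib.ValuationIntegral.mul_mem_nonunits A h4 hdA
  rw [mul_inv_cancel₀ hd0] at h5
  exact Fermat.Agent.Lib.ValuationIntegral.one_notMem_nonunits A h5

/-- `φ : U → M` is additive, continuous (trivial on the part of `U` fixing a finite extension)
and unramified outside `S` (trivial on the part of every inertia group at a prime outside `S`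
which lies in `U`). -/
def IsUnrHom (S : Finset Nat.Primes) (U : Subgroup GQ) {M : Type*} [AddCommGroup M]
    (φ : U → M) : Prop :=
  (∀ g h : U, φ (g * h) = φ g + φ h) ∧
  (∃ F : IntermediateField ℚ Qb, FiniteDimensional ℚ F ∧
      ∀ s : U, (s : GQ) ∈ F.fixingSubgroup → φ s = 0) ∧
  (∀ q : Nat.Primes, q ∉ S → ∀ A : ValuationSubring Qb, A.LiesOverPrime (q : ℕ) →
      ∀ s : U, (s : GQ) ∈ A.inertiaSubgroupIn ℚ → φ s = 0)

/-- The kernel of an additive map on a subgroup, as a subgroup of the ambient group. -/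
def kerSub {G : Type*} [Group G] (V : Subgroup G) {M : Type*} [AddCommGroup M] (φ : V → M)
    (hφ : ∀ g h : V, φ (g * h) = φ g + φ h) : Subgroup G where
  carrier := {s | ∃ hs : s ∈ V, φ ⟨s, hs⟩ = 0}
  one_mem' := by
    refine ⟨V.one_mem, ?_⟩
    have h := hφ 1 1
    rw [mul_one] at h
    have h1 : φ (1 : V) = 0 := by simpa using h
    exact h1
  mul_mem' := by
    rintro a b ⟨ha, ha0⟩ ⟨hb, hb0⟩
    refine ⟨V.mul_mem ha hb, ?_⟩
    have h := hφ ⟨a, ha⟩ ⟨b, hb⟩
    rw [ha0, hb0, add_zero] at h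
    exact h
  inv_mem' := by
    rintro a ⟨ha, ha0⟩
    refine ⟨V.inv_mem ha, ?_⟩
    have h1 : φ (1 : V) = 0 := by
      have h := hφ 1 1
      rw [mul_one] at h
      simpa using h
    have h := hφ ⟨a⁻¹, V.inv_mem ha⟩ ⟨a, ha⟩
    have h2 : (⟨a⁻¹, V.inv_mem ha⟩ : V) * ⟨a, ha⟩ = 1 := Subtype.ext (inv_mul_cancel a)
    rw [h2, h1, ha0, add_zero] at h
    exact h.symm

theorem mem_kerSub {G : Type*} [Group G] (V : Subgroup G) {M : Type*} [AddCommGroup M]
    (φ : V → M) (hφ : ∀ g h : V, φ (g * h) = φ g + φ h) (s : G) :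
    s ∈ kerSub V φ hφ ↔ ∃ hs : s ∈ V, φ ⟨s, hs⟩ = 0 := Iff.rfl

/-- On a finite abelian group of exponent `p`, additive maps to `ℤ/p` separate points. -/
theorem exists_addMonoidHom_ne_zero (p : ℕ) [Fact p.Prime] {T : Type*} [AddCommGroup T]
    (hT : ∀ m : T, p • m = 0) {t : T} (ht : t ≠ 0) : ∃ f : T →+ ZMod p, f t ≠ 0 := by
  letI inst : Module (ZMod p) T := AddCommGroup.zmodModule hT
  have h1 := @Module.Free.of_divisionRing (ZMod p) T _ _ inst
  have h2 := @Module.Projective.of_free (ZMod p) _ T _ inst h1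
  obtain ⟨f, hf⟩ := @Module.Projective.exists_dual_ne_zero T _ (ZMod p) _ inst h2 t ht
  exact ⟨f.toAddMonoidHom, hf⟩

/-- **Weak Mordell–Weil, brick (iii).** For an odd prime `p`, a finite set `S` of primes, an open
subgroup `U` of `Gal(ℚ̄/ℚ)` and a finite subgroup `T` of exponent `p` of an additive group `M`:
there are only finitely many additive maps `U → T`, continuous and unramified outside `S`. -/
theorem finite_isUnrHom (p : ℕ) [Fact p.Prime] (hp2 : p ≠ 2) (S : Finset Nat.Primes)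
    (U : Subgroup GQ)
    (hU : ∃ K₀ : IntermediateField ℚ Qb, FiniteDimensional ℚ K₀ ∧ K₀.fixingSubgroup ≤ U)
    {M : Type*} [AddCommGroup M] (T : AddSubgroup M) [Finite T] (hT : ∀ m ∈ T, p • m = 0) :
    {φ : U → M | IsUnrHom S U φ ∧ ∀ g, φ g ∈ T}.Finite := by
  classical
  obtain ⟨K₀, hK₀fin, hK₀U⟩ := hU
  obtain ⟨ζ, hζ⟩ := Fermat.Agent.PT.Levels.exists_primitiveRoot_Qbar p
  have hp : p.Prime := Fact.out
  have hζint : IsIntegral ℚ ζ := (Algebra.IsAlgebraic.isAlgebraic ζ).isIntegral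
  haveI : FiniteDimensional ℚ (IntermediateField.adjoin ℚ {ζ}) :=
    IntermediateField.adjoin.finiteDimensional hζint
  set K : IntermediateField ℚ Qb := K₀ ⊔ IntermediateField.adjoin ℚ {ζ} with hKdef
  haveI hKfin : FiniteDimensional ℚ K := IntermediateField.finiteDimensional_sup K₀ _
  have hζK : ζ ∈ K :=
    (le_sup_right : IntermediateField.adjoin ℚ {ζ} ≤ K)
      (IntermediateField.mem_adjoin_simple_self ℚ ζ)
  have hKU : K.fixingSubgroup ≤ U :=
    (IntermediateField.fixingSubgroup_antitone le_sup_left).trans hK₀U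
  obtain ⟨S₀, hS₀⟩ := exists_isUnramifiedOutside K
  set S' : Finset Nat.Primes := S ∪ S₀ ∪ {pPrime p} with hS'
  have hK : K.IsUnramifiedOutside S' :=
    hS₀.mono (fun q hq => Finset.mem_union_left _ (Finset.mem_union_right _ hq))
  have hpS' : pPrime p ∈ S' := Finset.mem_union_right _ (Finset.mem_singleton_self _)
  have hSS' : ∀ q : Nat.Primes, q ∉ S' → q ∉ S := fun q hq hqS =>
    hq (Finset.mem_union_left _ (Finset.mem_union_left _ hqS))
  haveI : NumberField K := ⟨⟩
  obtain ⟨c, -, -, hcard⟩ :=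
    Fermat.Agent.PT.KumBridge.exists_card_kummerChars K S' p hp2 hpS' hK hζ hζK
  haveI : Finite (Fermat.Agent.PT.KumBridge.kummerChars K S' p) :=
    Nat.finite_of_card_ne_zero (by rw [hcard]; exact pow_ne_zero _ hp.ne_zero)
  choose F hF hFconst using fun χ : Fermat.Agent.PT.KumBridge.kummerChars K S' p => χ.2.2
  set Ftot : IntermediateField ℚ Qb := K ⊔ ⨆ χ, F χ with hFtot
  haveI : ∀ χ, FiniteDimensional ℚ (F χ) := fun χ => (hF χ).1
  haveI : FiniteDimensional ℚ (⨆ χ, F χ : IntermediateField ℚ Qb) :=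
    IntermediateField.finiteDimensional_iSup_of_finite
  haveI hFtotfin : FiniteDimensional ℚ Ftot := IntermediateField.finiteDimensional_sup K _
  -- every `φ` of the set vanishes on `U ∩ Gal(ℚ̄/Ftot)`
  have key : ∀ φ : U → M, IsUnrHom S U φ → (∀ g, φ g ∈ T) →
      ∀ s : U, (s : GQ) ∈ Ftot.fixingSubgroup → φ s = 0 := by
    rintro φ ⟨hadd, ⟨F₀, hF₀fin, hF₀⟩, hunr⟩ hφT s hs
    by_contra hne
    have hsK : (s : GQ) ∈ K.fixingSubgroup :=
      IntermediateField.fixingSubgroup_antitone (le_sup_left : K ≤ Ftot) hs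
    have hTexp : ∀ m : T, p • m = 0 := fun m => Subtype.ext (by simpa using hT m m.2)
    have ht : (⟨φ s, hφT s⟩ : T) ≠ 0 := fun h => hne (congrArg Subtype.val h)
    obtain ⟨f, hf⟩ := exists_addMonoidHom_ne_zero p hTexp ht
    -- the restriction of `φ` to `Gal(ℚ̄/K)`
    set φK : K.fixingSubgroup → M := fun g => φ ⟨g, hKU g.2⟩ with hφK
    have hφKadd : ∀ g h : K.fixingSubgroup, φK (g * h) = φK g + φK h := fun g h =>
      hadd ⟨g, hKU g.2⟩ ⟨h, hKU h.2⟩
    set χ : K.fixingSubgroup → ZMod p := fun g => f ⟨φK g, hφT _⟩ with hχ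
    have hχadd : ∀ g h : K.fixingSubgroup, χ (g * h) = χ g + χ h := by
      intro g h
      simp only [hχ]
      rw [← map_add]
      exact congrArg f (Subtype.ext (hφKadd g h))
    -- the fixed field of the kernel is a level for `S'`
    set H : Subgroup GQ := kerSub K.fixingSubgroup φK hφKadd with hH
    haveI : FiniteDimensional ℚ (F₀ ⊔ K : IntermediateField ℚ Qb) :=
      IntermediateField.finiteDimensional_sup F₀ K
    have hle : (F₀ ⊔ K : IntermediateField ℚ Qb).fixingSubgroup ≤ H := by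
      intro t ht
      rw [IntermediateField.fixingSubgroup_sup] at ht
      exact ⟨ht.2, hF₀ ⟨t, hKU ht.2⟩ ht.1⟩
    have hHopen : IsOpen (H : Set GQ) :=
      Subgroup.isOpen_mono hle (IntermediateField.fixingSubgroup_isOpen _)
    have hHclosed : IsClosed (H : Set GQ) := Subgroup.isClosed_of_isOpen _ hHopen
    set L : IntermediateField ℚ Qb := IntermediateField.fixedField H with hL
    have hLfix : L.fixingSubgroup = H := InfiniteGalois.fixingSubgroup_fixedField ⟨H, hHclosed⟩
    have hLF : L ≤ F₀ ⊔ K := by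
      rw [← InfiniteGalois.fixedField_fixingSubgroup (F₀ ⊔ K)]
      exact IntermediateField.fixedField_antitone hle
    have hLfin : FiniteDimensional ℚ L :=
      FiniteDimensional.of_injective (IntermediateField.inclusion hLF).toLinearMap
        (IntermediateField.inclusion hLF).injective
    have hLunr : L.IsUnramifiedOutside S' := by
      refine ⟨hLfin, fun q hq A hA σ hσ => ?_⟩
      rw [hLfix]
      have hσK : σ ∈ K.fixingSubgroup := hK.2 q hq A hA hσ
      exact ⟨hσK, hunr q (hSS' q hq) A hA ⟨σ, hKU hσK⟩ hσ⟩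
    have hχmem : χ ∈ Fermat.Agent.PT.KumBridge.kummerChars K S' p := by
      refine ⟨hχadd, L, hLunr, fun g t ht => ?_⟩
      rw [hLfix] at ht
      obtain ⟨ht1, ht2⟩ := ht
      have h0 : φK t = 0 := ht2
      have h1 : φK (g * t) = φK g := by rw [hφKadd, h0, add_zero]
      simp only [hχ]
      exact congrArg f (Subtype.ext h1)
    -- evaluate the level-constancy at `s`
    have h1 := hFconst ⟨χ, hχmem⟩ 1 ⟨s, hsK⟩
      (IntermediateField.fixingSubgroup_antitone
        ((le_iSup F ⟨χ, hχmem⟩).trans (le_sup_right : (⨆ χ, F χ) ≤ Ftot)) hs)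
    rw [one_mul] at h1
    have h2 : χ 1 = 0 := by
      have h := hχadd 1 1
      rw [mul_one] at h
      simpa using h
    have h3 : χ ⟨s, hsK⟩ = f ⟨φ s, hφT s⟩ := rfl
    exact hf (by rw [← h3]; exact h1.trans h2)
  -- all `φ` factor through the finite quotient `U / (U ∩ Gal(ℚ̄/Ftot))`
  set H' : Subgroup U := Ftot.fixingSubgroup.subgroupOf U with hH'
  haveI : Finite (GQ ⧸ Ftot.fixingSubgroup) :=
    Subgroup.quotient_finite_of_isOpen _ (IntermediateField.fixingSubgroup_isOpen Ftot)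
  haveI : Ftot.fixingSubgroup.FiniteIndex := Subgroup.finiteIndex_of_finite_quotient
  haveI : H'.FiniteIndex := inferInstance
  haveI : Finite (U ⧸ H') := Subgroup.finite_quotient_of_finiteIndex
  have hTfin : (T : Set M).Finite := Set.toFinite _
  refine Set.Finite.of_injOn (f := fun (φ : U → M) (c : U ⧸ H') => φ (Quotient.out c))
    (t := {ψ : U ⧸ H' → M | ∀ c, ψ c ∈ (T : Set M)}) ?_ ?_ (Set.Finite.pi' fun _ => hTfin)
  · rintro φ ⟨-, hφT⟩ c
    exact hφT _
  · rintro φ₁ ⟨h1, h1T⟩ φ₂ ⟨h2, h2T⟩ heq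
    funext g
    obtain ⟨h, hh⟩ := QuotientGroup.mk_out_eq_mul H' g
    have e1 : φ₁ (Quotient.out (QuotientGroup.mk g : U ⧸ H')) = φ₁ g := by
      rw [hh, h1.1, key φ₁ h1 h1T h h.2, add_zero]
    have e2 : φ₂ (Quotient.out (QuotientGroup.mk g : U ⧸ H')) = φ₂ g := by
      rw [hh, h2.1, key φ₂ h2 h2T h h.2, add_zero]
    rw [← e1, ← e2]
    exact congrFun heq _

end Fermat.Agent.MW.WMW.FiniteHom
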